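import Fermat.Agent.Apery.MeasureBounds
import Fermat.Agent.Root.SummaryPrimeNumberTheorem

/-!
# Irrationality exponents from forms with known growth

If `log aₙ / n → α`, the ratios `bₙ / aₙ` tend to `x` by increments `K / ((n + 1) ^ s aₙ aₙ₊₁)`
and `lcm (1, …, n) ^ s` clears the denominators, then by the prime number theorem every
`μ > 1 + (α + s) / (α - s)` is an irrationality exponent of `x`.
-/

set_option autoImplicit false

noncomputable section

namespace FA.AperyExponents

open Filter Topology Finset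

/-- The exponent `μ` holds for `x`. -/
def HasExponent (x μ : ℝ) : Prop :=
  ∃ c : ℝ, 0 < c ∧ ∀ (p : ℤ) (q : ℕ), 0 < q → c / (q : ℝ) ^ μ ≤ |x - p / q|

/-- **The measure of small forms, with a real exponent.** -/
theorem hasExponent_of_forms {x A E G κ : ℝ} (a b : ℕ → ℤ) (hE : 0 < E) (hκ0 : 0 < κ)
    (hκ : A + G ≤ κ * E)
    (h : ∀ᶠ n : ℕ in atTop, |(a n : ℝ)| ≤ Real.exp (A * n) ∧
      Real.exp (-(G * n)) ≤ |a n * x - b n| ∧ |a n * x - b n| ≤ Real.exp (-(E * n))) :
    HasExponent x κ := by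
  obtain ⟨n₀, hn₀⟩ := eventually_atTop.1 h
  refine ⟨min (Real.exp (-(κ * E * n₀))) ((Real.exp (-E) / 2) ^ κ),
    lt_min (Real.exp_pos _) (Real.rpow_pos_of_pos (by positivity) _), fun p q hq => ?_⟩
  have hq1 : (1 : ℝ) ≤ q := by exact_mod_cast hq
  have hq0 : (0 : ℝ) < q := by linarith
  have hex : ∃ n : ℕ, n₀ ≤ n ∧ (q : ℝ) * Real.exp (-(E * n)) < 1 / 2 := by
    have hlim := ((tendsto_pow_atTop_nhds_zero_of_lt_one (Real.exp_pos (-E)).le
      (Real.exp_lt_one_iff.2 (by linarith))).const_mul (q : ℝ))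
    rw [mul_zero] at hlim
    obtain ⟨n, hn, hn'⟩ := ((eventually_ge_atTop n₀).and
      (hlim.eventually_lt_const (show (0 : ℝ) < 1 / 2 by norm_num))).exists
    refine ⟨n, hn, ?_⟩
    rwa [← Real.exp_nat_mul, mul_comm (n : ℝ), neg_mul] at hn'
  classical
  set n := Nat.find hex with hn
  obtain ⟨hn1, hnq⟩ := Nat.find_spec hex
  rw [← hn] at hn1 hnq
  obtain ⟨ha, hlow, hupp⟩ := hn₀ n hn1
  set L := (a n : ℝ) * x - b n with hL
  have hkey : (q : ℝ) * Real.exp (-(κ * E * n)) ≤ |(q : ℝ) * x - p| := by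
    by_contra hlt
    rw [not_le] at hlt
    have hsmall : Real.exp (A * n) * |(q : ℝ) * x - p| < q * Real.exp (-(G * n)) := by
      calc Real.exp (A * n) * |(q : ℝ) * x - p|
          < Real.exp (A * n) * (q * Real.exp (-(κ * E * n))) :=
            mul_lt_mul_of_pos_left hlt (Real.exp_pos _)
        _ = q * Real.exp (A * n + -(κ * E * n)) := by rw [Real.exp_add]; ring
        _ ≤ _ := by
          refine mul_le_mul_of_nonneg_left (Real.exp_le_exp.2 ?_) hq0.le
          nlinarith [mul_le_mul_of_nonneg_right hκ (Nat.cast_nonneg (α := ℝ) n)]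
    set J : ℤ := a n * p - b n * q with hJ
    have hJe : (J : ℝ) = q * L - a n * ((q : ℝ) * x - p) := by
      rw [hJ, hL]; push_cast; ring
    have herr : |(a n : ℝ) * ((q : ℝ) * x - p)| ≤ Real.exp (A * n) * |(q : ℝ) * x - p| := by
      rw [abs_mul]; exact mul_le_mul_of_nonneg_right ha (abs_nonneg _)
    have hmain : (q : ℝ) * Real.exp (-(G * n)) ≤ |(q : ℝ) * L| ∧ |(q : ℝ) * L| < 1 / 2 := by
      rw [abs_mul, Nat.abs_cast]
      exact ⟨mul_le_mul_of_nonneg_left hlow hq0.le,
        lt_of_le_of_lt (mul_le_mul_of_nonneg_left hupp hq0.le) hnq⟩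
    have hJ0 : J ≠ 0 := by
      intro h0
      rw [h0, Int.cast_zero] at hJe
      rw [show (q : ℝ) * L = a n * ((q : ℝ) * x - p) by linarith] at hmain
      linarith [hmain.1]
    have h1 : (1 : ℝ) ≤ |(J : ℝ)| := by exact_mod_cast Int.one_le_abs hJ0
    rw [hJe] at h1
    linarith [abs_sub ((q : ℝ) * L) (a n * ((q : ℝ) * x - p)), hmain.1, hmain.2]
  have hpow : min (Real.exp (-(κ * E * n₀))) ((Real.exp (-E) / 2) ^ κ) ≤
      Real.exp (-(κ * E * n)) * (q : ℝ) ^ κ := by
    rcases eq_or_lt_of_le hn1 with heq | hlt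
    · rw [← heq]
      exact le_trans (min_le_left _ _) (le_mul_of_one_le_right (Real.exp_pos _).le
        (Real.one_le_rpow hq1 hκ0.le))
    obtain ⟨n', hn'⟩ : ∃ n', n = n' + 1 := ⟨n - 1, by omega⟩
    have hmin : (1 : ℝ) / 2 ≤ q * Real.exp (-(E * n')) := by
      have := Nat.find_min hex (show n' < n by omega)
      rw [not_and, not_lt] at this
      exact this (by omega)
    refine le_trans (min_le_right _ _) ?_
    rw [show -(κ * E * n) = -(E * n) * κ by ring, Real.exp_mul,
      ← Real.mul_rpow (Real.exp_pos _).le hq0.le]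
    refine Real.rpow_le_rpow (by positivity) ?_ hκ0.le
    rw [hn', show -(E * ((n' + 1 : ℕ) : ℝ)) = -(E * n') + -E by push_cast; ring, Real.exp_add]
    nlinarith [Real.exp_pos (-E)]
  calc min (Real.exp (-(κ * E * n₀))) ((Real.exp (-E) / 2) ^ κ) / (q : ℝ) ^ κ
      ≤ Real.exp (-(κ * E * n)) := (div_le_iff₀ (Real.rpow_pos_of_pos hq0 _)).2 hpow
    _ = q * Real.exp (-(κ * E * n)) / q := by field_simp
    _ ≤ |(q : ℝ) * x - p| / q := by gcongr
    _ = |x - p / q| := by
        rw [show x - p / q = ((q : ℝ) * x - p) / q by field_simp, abs_div, abs_of_pos hq0]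

/-- A perturbed contraction tends to zero. -/
theorem tendsto_zero_of_contraction {u e : ℕ → ℝ} {k : ℝ} (hk0 : 0 ≤ k) (hk : k < 1)
    (hu : ∀ n, 0 ≤ u n) (he : Tendsto e atTop (𝓝 0)) (h : ∀ n, u (n + 1) ≤ e n + k * u n) :
    Tendsto u atTop (𝓝 0) := by
  rw [Metric.tendsto_atTop]
  intro ε hε
  obtain ⟨N, hN⟩ := eventually_atTop.1
    (he.eventually_le_const (show (0 : ℝ) < ε / 2 * (1 - k) from
      mul_pos (by linarith) (by linarith)))
  have hind : ∀ m, u (N + m) ≤ ε / 2 + k ^ m * u N := by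
    intro m
    induction m with
    | zero => simp only [add_zero, pow_zero, one_mul]; linarith
    | succ m ih =>
      rw [← add_assoc]
      refine (h (N + m)).trans ?_
      rw [pow_succ' k m, mul_assoc]
      nlinarith [hN (N + m) (Nat.le_add_right _ _), mul_le_mul_of_nonneg_left ih hk0]
  have hpow := (tendsto_pow_atTop_nhds_zero_of_lt_one hk0 hk).mul_const (u N)
  rw [zero_mul] at hpow
  obtain ⟨M, hM⟩ := eventually_atTop.1
    (hpow.eventually_lt_const (show (0 : ℝ) < ε / 2 by linarith))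
  refine ⟨N + M, fun n hn => ?_⟩
  obtain ⟨m, rfl⟩ := Nat.exists_eq_add_of_le (le_trans (Nat.le_add_right N M) hn)
  rw [dist_zero_right, Real.norm_eq_abs, abs_of_nonneg (hu _)]
  linarith [hind m, hM m (by omega)]

/-- **The ratio of a three-term recurrence with convergent coefficients.** -/
theorem tendsto_ratio_of_recurrence {a p c : ℕ → ℝ} {P C α : ℝ} (hpos : ∀ n, 0 < a n)
    (hgrow : ∀ n, 3 * a n ≤ a (n + 1)) (hrec : ∀ n, a (n + 2) = p n * a (n + 1) + c n * a n)
    (hp : Tendsto p atTop (𝓝 P)) (hc : Tendsto c atTop (𝓝 C)) (hα : 3 ≤ α)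
    (hfix : α = P + C / α) (hC : |C| ≤ 1) :
    Tendsto (fun n => a (n + 1) / a n) atTop (𝓝 α) := by
  have he : Tendsto (fun n => |p n - P| + |c n - C| / 3) atTop (𝓝 0) := by
    simpa using ((hp.sub_const P).abs).add (((hc.sub_const C).abs).div_const 3)
  rw [← tendsto_sub_nhds_zero_iff, tendsto_zero_iff_abs_tendsto_zero]
  refine tendsto_zero_of_contraction (k := 1 / 9) (by norm_num) (by norm_num)
    (fun n => abs_nonneg _) he fun n => ?_
  obtain ⟨r, hr⟩ : ∃ r, r = a (n + 1) / a n := ⟨_, rfl⟩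
  have hr3 : 3 ≤ r := hr ▸ (le_div_iff₀ (hpos n)).2 (hgrow n)
  have hnext : a (n + 1 + 1) / a (n + 1) = p n + c n / r := by
    rw [hrec, hr]
    field_simp [(hpos n).ne', (hpos (n + 1)).ne']
  simp only [Function.comp_apply]
  rw [hnext, ← hr, show p n + c n / r - α = (p n - P) + (c n - C) / r + C * (α - r) / (r * α) by
    conv_lhs => rw [hfix]
    field_simp
    ring]
  refine (abs_add_three _ _ _).trans (add_le_add (add_le_add le_rfl ?_) ?_)
  · rw [abs_div, abs_of_pos (show 0 < r by linarith)]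
    exact div_le_div_of_nonneg_left (abs_nonneg _) (by norm_num) hr3
  · rw [abs_div, abs_mul, abs_of_pos (show 0 < r * α by positivity), abs_sub_comm α r,
      div_le_iff₀ (by positivity)]
    nlinarith [mul_le_mul_of_nonneg_right hC (abs_nonneg (r - α)),
      mul_le_mul hr3 hα (by norm_num) (by linarith), abs_nonneg (r - α)]

/-- **Logarithmic growth from the ratio.** -/
theorem tendsto_log_div_of_ratio {a : ℕ → ℝ} {α : ℝ} (hpos : ∀ n, 0 < a n) (hα : 0 < α)
    (h : Tendsto (fun n => a (n + 1) / a n) atTop (𝓝 α)) :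
    Tendsto (fun n : ℕ => Real.log (a n) / n) atTop (𝓝 (Real.log α)) := by
  have h1 := ((Real.continuousAt_log hα.ne').tendsto.comp h).cesaro
  have h2 := h1.add ((tendsto_natCast_atTop_atTop (R := ℝ)).inv_tendsto_atTop.mul_const
    (Real.log (a 0)))
  rw [zero_mul, add_zero] at h2
  refine h2.congr' ?_
  filter_upwards [eventually_gt_atTop 0] with n hn
  simp only [Function.comp_apply, Pi.inv_apply]
  rw [sum_congr rfl fun i _ => Real.log_div (hpos (i + 1)).ne' (hpos i).ne',
    sum_range_sub (fun i => Real.log (a i))]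
  ring

/-- **`log lcm (1, …, n) ∼ n`.** -/
theorem tendsto_log_lcmUpto :
    Tendsto (fun n : ℕ => Real.log (Nat.lcmUpto n) / n) atTop (𝓝 1) := by
  refine (FA.PNT.Summary.tendsto_psi.comp (tendsto_natCast_atTop_atTop (R := ℝ))).congr fun n => ?_
  simp only [Function.comp_apply]
  rw [Chebyshev.psi_eq_log_lcmUpto]

theorem tendsto_log_succ_div : Tendsto (fun n : ℕ => Real.log ((n : ℝ) + 1) / n) atTop (𝓝 0) := by
  have h1 := (Real.isLittleO_log_id_atTop.tendsto_div_nhds_zero).comp
    (tendsto_atTop_add_const_right atTop (1 : ℝ) (tendsto_natCast_atTop_atTop (R := ℝ)))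
  have h2 : Tendsto (fun n : ℕ => 1 + 1 / (n : ℝ)) atTop (𝓝 (1 + 0)) :=
    tendsto_one_div_atTop_nhds_zero_nat.const_add 1
  have := h1.mul h2
  rw [zero_mul] at this
  refine this.congr' ?_
  filter_upwards [eventually_gt_atTop 0] with n hn
  have : (n : ℝ) ≠ 0 := Nat.cast_ne_zero.2 hn.ne'
  simp only [Function.comp_apply, id]
  field_simp

/-- **Exponents of a limit of ratios with known growth.** -/
theorem hasExponent_of_growth {a b : ℕ → ℝ} {x α K m : ℝ} {s : ℕ} (hpos : ∀ n, 0 < a n)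
    (hgrow : ∀ n, 3 * a n ≤ a (n + 1))
    (hα : Tendsto (fun n : ℕ => Real.log (a n) / n) atTop (𝓝 α)) (hs : (s : ℝ) < α) (hK : 0 < K)
    (hstep : ∀ n, |b (n + 1) / a (n + 1) - b n / a n| =
      K / (((n : ℝ) + 1) ^ s * (a n * a (n + 1))))
    (hx : Tendsto (fun n => b n / a n) atTop (𝓝 x)) (hm : 0 < m)
    (hint : ∀ n, ∃ u v : ℤ, (u : ℝ) = m * (Nat.lcmUpto n : ℝ) ^ s * a n ∧
      (v : ℝ) = m * (Nat.lcmUpto n : ℝ) ^ s * b n)
    {μ : ℝ} (hμ : 1 + (α + s) / (α - s) < μ) : HasExponent x μ := by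
  choose u v hu hv using hint
  obtain ⟨t, ht⟩ : ∃ t : ℕ → ℝ, ∀ n, t n = K / (((n : ℝ) + 1) ^ s * (a n * a (n + 1))) :=
    ⟨_, fun _ => rfl⟩
  have htpos : ∀ n, 0 < t n := fun n => by
    have := hpos n; have := hpos (n + 1); rw [ht]; positivity
  have hbd := FA.Apery.increment_bounds (r := fun n => b n / a n) (t := t) (fun n => (htpos n).le)
    (fun n => (hstep n).trans (ht n).symm) (fun n => by
      have := hpos n; have := hpos (n + 1); have := hpos (n + 1 + 1)
      rw [ht, ht, div_div]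
      refine div_le_div_of_nonneg_left hK.le (by positivity) ?_
      calc ((n : ℝ) + 1) ^ s * (a n * a (n + 1)) * 9
          = ((n : ℝ) + 1) ^ s * (3 * a n * (3 * a (n + 1))) := by ring
        _ ≤ (((n + 1 : ℕ) : ℝ) + 1) ^ s * (a (n + 1) * a (n + 1 + 1)) := by
          gcongr
          · linarith
          · exact hgrow n
          · exact hgrow (n + 1))
    hx
  obtain ⟨ε, hε, hε0⟩ : ∃ ε, α * 2 + 2 * ε ≤ μ * (α - s - ε) ∧ 0 < ε ∧ ε < α - s := by
    have h0 : 0 < α - s := sub_pos.2 hs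
    have hsum : (1 + (α + s) / (α - s)) * (α - s) = 2 * α := by field_simp; ring
    have h1 : 0 < μ * (α - s) - 2 * α := by nlinarith
    have hμ0 : 0 < μ := by
      have : 0 ≤ (α + s) / (α - s) :=
        div_nonneg (by linarith [(Nat.cast_nonneg s : (0 : ℝ) ≤ s)]) h0.le
      linarith
    refine ⟨min ((μ * (α - s) - 2 * α) / (μ + 2)) ((α - s) / 2), ?_, lt_min (by positivity)
      (by linarith), lt_of_le_of_lt (min_le_right _ _) (by linarith)⟩
    have := (le_div_iff₀ (show 0 < μ + 2 by linarith)).1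
      (min_le_left ((μ * (α - s) - 2 * α) / (μ + 2)) ((α - s) / 2))
    nlinarith
  obtain ⟨hεpos, hεlt⟩ := hε0
  have hd : Tendsto (fun n : ℕ => Real.log (m * (Nat.lcmUpto n : ℝ) ^ s) / n) atTop (𝓝 s) := by
    have h1 := ((tendsto_natCast_atTop_atTop (R := ℝ)).inv_tendsto_atTop.const_mul (Real.log m)).add
      (tendsto_log_lcmUpto.const_mul (s : ℝ))
    rw [mul_zero, zero_add, mul_one] at h1
    refine h1.congr fun n => ?_
    simp only [Pi.inv_apply]
    rw [Real.log_mul hm.ne' (pow_ne_zero _ (Nat.cast_ne_zero.2 (Nat.lcmUpto_ne_zero n))),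
      Real.log_pow]
    ring
  have hA : Tendsto (fun n : ℕ => Real.log |(u n : ℝ)| / n) atTop (𝓝 (s + α)) := by
    refine (hd.add hα).congr fun n => ?_
    have := hpos n
    have := Nat.lcmUpto_pos n
    rw [hu, abs_of_pos (by positivity), ← add_div, ← Real.log_mul (by positivity) (by positivity)]
  have hLabs : ∀ n, |(u n : ℝ) * x - v n| =
      m * (Nat.lcmUpto n : ℝ) ^ s * a n * |x - b n / a n| := fun n => by
    have := hpos n
    have := Nat.lcmUpto_pos n
    rw [hu, hv, ← abs_of_pos (show 0 < m * (Nat.lcmUpto n : ℝ) ^ s * a n by positivity),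
      ← abs_mul, abs_of_pos (show 0 < m * (Nat.lcmUpto n : ℝ) ^ s * a n by positivity)]
    congr 1
    field_simp
  have hB : ∀ w : ℝ, 0 < w →
      Tendsto (fun n : ℕ => Real.log (m * (Nat.lcmUpto n : ℝ) ^ s * a n * (w * t n)) / n) atTop
        (𝓝 (s - α)) := fun w hw => by
    have h1 := ((tendsto_natCast_atTop_atTop (R := ℝ)).inv_tendsto_atTop.const_mul
      (Real.log (w * K))).add (hd.add ((tendsto_log_succ_div.const_mul (-(s : ℝ))).sub
      ((hα.comp (tendsto_add_atTop_nat 1)).mul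
        ((tendsto_one_div_atTop_nhds_zero_nat (𝕜 := ℝ)).const_add 1))))
    rw [mul_zero, mul_zero, zero_add, zero_sub, add_zero, mul_one, ← sub_eq_add_neg] at h1
    refine h1.congr' ?_
    filter_upwards [eventually_gt_atTop 0] with n hn
    have := hpos n; have := hpos (n + 1)
    have := Nat.lcmUpto_pos n
    have hn0 : (n : ℝ) ≠ 0 := Nat.cast_ne_zero.2 hn.ne'
    rw [ht, show m * (Nat.lcmUpto n : ℝ) ^ s * a n * (w * (K / (((n : ℝ) + 1) ^ s *
      (a n * a (n + 1))))) = w * K * (m * (Nat.lcmUpto n : ℝ) ^ s) /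
        (((n : ℝ) + 1) ^ s * a (n + 1)) by field_simp,
      Real.log_div (by positivity) (by positivity),
      Real.log_mul (x := w * K) (by positivity) (by positivity),
      Real.log_mul (x := ((n : ℝ) + 1) ^ s) (by positivity) (by positivity), Real.log_pow]
    simp only [Function.comp_apply, Pi.inv_apply]
    push_cast
    field_simp
    ring
  refine hasExponent_of_forms (A := s + α + ε) (E := α - s - ε) (G := α - s + ε) (κ := μ) u v
    (by linarith) ?_ (by linarith) ?_
  · have : 0 ≤ (α + s) / (α - s) :=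
      div_nonneg (by linarith [(Nat.cast_nonneg s : (0 : ℝ) ≤ s)]) (sub_nonneg.2 hs.le)
    linarith
  filter_upwards [hA.eventually_le_const (show (s : ℝ) + α < s + α + ε by linarith),
    (hB (7 / 8) (by norm_num)).eventually_const_le (show s - α - ε < s - α by linarith),
    (hB (9 / 8) (by norm_num)).eventually_le_const (show s - α < s - α + ε by linarith),
    eventually_gt_atTop 0] with n h1 h2 h3 hn
  have hn0 : (0 : ℝ) < n := Nat.cast_pos.2 hn
  have := hpos n
  have := htpos n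
  have := Nat.lcmUpto_pos n
  obtain ⟨hlo, hhi⟩ := hbd n
  have hu0 : 0 < |(u n : ℝ)| := abs_pos.2 (by rw [hu]; positivity)
  rw [div_le_iff₀ hn0, Real.log_le_iff_le_exp hu0] at h1
  rw [le_div_iff₀ hn0, Real.le_log_iff_exp_le (by positivity)] at h2
  rw [div_le_iff₀ hn0, Real.log_le_iff_le_exp (by positivity)] at h3
  refine ⟨h1, ?_, ?_⟩
  · rw [hLabs, show -((α - s + ε) * n) = (s - α - ε) * n by ring]
    exact h2.trans (mul_le_mul_of_nonneg_left hlo (by positivity))
  · rw [hLabs, show -((α - s - ε) * n) = (s - α + ε) * n by ring]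
    exact (mul_le_mul_of_nonneg_left hhi (by positivity)).trans h3

end FA.AperyExponents
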