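import Mathlib.Algebra.Group.ForwardDiff
import Mathlib.Data.Nat.Choose.Central
import Fermat.Agent.AperyExponents.Criterion

/-!
# The exponent of `log 2`

The central Delannoy numbers `Dₙ = ∑ C(n, k) C(n + k, k)` with their companions
`∑ C(n, k) C(n + k, k) Aₖ`, `Aₖ` the partial sums of `1 - 1/2 + 1/3 - ⋯`, satisfy the recurrence of
the Legendre polynomials, and `Dₙ log 2` minus the companion is `∫₀¹ u ^ n / (1 + x)` for
`u = x (1 - x) / (1 + x)` (Alladi and Robinson, 1980).
-/

set_option autoImplicit false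

noncomputable section

namespace FA.AperyExponents

open Filter Topology Finset intervalIntegral
open scoped fwdDiff
open FA.Apery (P IsI)

/-- The central Delannoy numbers. -/
def delannoy (n : ℕ) : ℚ := ∑ k ∈ range (n + 1), P n k

/-- `∑_{m < k} (-1) ^ m / (m + 1)`. -/
def altHarm (k : ℕ) : ℚ := ∑ m ∈ range k, (-1) ^ m / ((m : ℚ) + 1)

/-- The companions of the Delannoy numbers. -/
def logNum (n : ℕ) : ℚ := ∑ k ∈ range (n + 1), P n k * altHarm k

/-- Bonnet's recurrence, coefficientwise. -/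
theorem P_bonnet (j k : ℕ) : ((j : ℚ) + 2) * P (j + 2) (k + 1) =
    (2 * (j : ℚ) + 3) * (2 * P (j + 1) k + P (j + 1) (k + 1)) -
      ((j : ℚ) + 1) * P j (k + 1) := by
  rcases lt_trichotomy k (j + 1) with hk | rfl | hk
  · have e1 := FA.Apery.P_succ_left (n := j) (k := k + 1) (by omega)
    have e2 := FA.Apery.P_succ_left (n := j + 1) (k := k + 1) (by omega)
    have e3 := FA.Apery.P_succ_right (n := j + 1) (k := k) (by omega)
    push_cast at e1 e2 e3
    have h1 : ((j : ℚ) + k + 2) ≠ 0 := by positivity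
    have h2 : ((j : ℚ) + 1 - k) ≠ 0 := by
      have : (k : ℚ) + 1 ≤ j + 1 := by exact_mod_cast hk
      linarith
    refine mul_left_cancel₀ (mul_ne_zero h1 h2) ?_
    linear_combination ((j : ℚ) + k + 2) * ((j : ℚ) + 2) * e2 -
      ((j : ℚ) + 1) * ((j : ℚ) + 1 - k) * e1 + 2 * (2 * (j : ℚ) + 3) * e3
  · rw [FA.Apery.P_eq_zero (show j + 1 < j + 1 + 1 by omega),
      FA.Apery.P_eq_zero (show j < j + 1 + 1 by omega)]
    have h := congrArg (fun m : ℕ => (m : ℚ)) (Nat.succ_mul_centralBinom_succ (j + 1))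
    simp only [Nat.centralBinom] at h
    push_cast at h
    simp only [P, Nat.choose_self, one_mul, show j + 2 = j + 1 + 1 from rfl,
      show j + 1 + 1 + (j + 1 + 1) = 2 * (j + 1 + 1) by omega,
      show j + 1 + (j + 1) = 2 * (j + 1) by omega]
    linear_combination h
  · rw [FA.Apery.P_eq_zero (show j + 2 < k + 1 by omega), FA.Apery.P_eq_zero hk,
      FA.Apery.P_eq_zero (show j + 1 < k + 1 by omega),
      FA.Apery.P_eq_zero (show j < k + 1 by omega)]
    ring

theorem sum_bonnet (j : ℕ) (f : ℕ → ℚ) :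
    ((j : ℚ) + 2) * (∑ k ∈ range (j + 3), P (j + 2) k * f k) -
      3 * (2 * (j : ℚ) + 3) * (∑ k ∈ range (j + 2), P (j + 1) k * f k) +
      ((j : ℚ) + 1) * (∑ k ∈ range (j + 1), P j k * f k) =
    2 * (2 * (j : ℚ) + 3) * ∑ k ∈ range (j + 2), P (j + 1) k * (f (k + 1) - f k) := by
  have ext : ∀ (n m : ℕ), n ≤ m →
      ∑ k ∈ range (n + 1), P n k * f k = ∑ k ∈ range (m + 1), P n k * f k :=
    fun n m hnm => sum_subset (range_subset_range.mpr (by omega)) fun k _ hk => by
      rw [mem_range, not_lt] at hk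
      rw [FA.Apery.P_eq_zero hk, zero_mul]
  simp only [show j + 3 = j + 1 + 1 + 1 from rfl, show j + 2 = j + 1 + 1 from rfl]
  rw [ext j (j + 1 + 1) (by omega), ext (j + 1) (j + 1 + 1) (Nat.le_succ _),
    sum_range_succ' _ (j + 1 + 1), sum_range_succ' _ (j + 1 + 1), sum_range_succ' _ (j + 1 + 1),
    FA.Apery.P_zero, FA.Apery.P_zero, FA.Apery.P_zero]
  simp only [mul_sub, sum_sub_distrib]
  have e : ∑ k ∈ range (j + 1 + 1), P (j + 1) k * f k =
      P (j + 1) 0 * f 0 + ∑ k ∈ range (j + 1 + 1), P (j + 1) (k + 1) * f (k + 1) := by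
    rw [sum_range_succ' _ (j + 1), sum_range_succ _ (j + 1),
      FA.Apery.P_eq_zero (show j + 1 < j + 1 + 1 by omega), zero_mul, add_zero, add_comm]
  rw [e, FA.Apery.P_zero]
  have hsum : ∑ k ∈ range (j + 1 + 1), (((j : ℚ) + 2) * P (j + 1 + 1) (k + 1) * f (k + 1)) =
      ∑ k ∈ range (j + 1 + 1), ((2 * (j : ℚ) + 3) * (2 * P (j + 1) k + P (j + 1) (k + 1)) -
        ((j : ℚ) + 1) * P j (k + 1)) * f (k + 1) :=
    sum_congr rfl fun k _ => by rw [show j + 1 + 1 = j + 2 from rfl, P_bonnet]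
  simp only [sub_mul, mul_add, add_mul, sum_sub_distrib, sum_add_distrib, mul_assoc, ← mul_sum]
    at hsum ⊢
  linear_combination hsum

/-- `∫₀¹` of a Legendre polynomial. -/
theorem sum_P_alt_div {n : ℕ} (hn : 1 ≤ n) :
    ∑ k ∈ range (n + 1), P n k * ((-1) ^ k / ((k : ℚ) + 1)) = 0 := by
  obtain ⟨r, rfl⟩ := Nat.exists_eq_add_of_le hn
  have h0 : Δ_[1] ^[r + 1] (fun x : ℕ => ((x + (r + 1)).choose r : ℤ)) 0 = 0 := by
    have h := fwdDiff_iter_choose_zero r
    rw [fwdDiff_iter_comp_add (f := fun x : ℕ => (x.choose r : ℤ))]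
    rw [Function.iterate_succ_apply']
    have hc : Δ_[1] ^[r] (fun x : ℕ => (x.choose r : ℤ)) = fun _ => 1 := by
      simpa using fwdDiff_iter_choose 0 r
    rw [hc, fwdDiff_const]
  rw [fwdDiff_iter_eq_sum_shift] at h0
  have h1 := congrArg (fun z : ℤ => (-1 : ℚ) ^ (r + 1) * (z : ℚ)) h0
  simp only [Int.cast_sum, Int.cast_zero, mul_zero, mul_sum, smul_eq_mul, Int.cast_mul,
    Int.cast_pow, Int.cast_neg, Int.cast_one, Int.cast_natCast, mul_one, zero_add] at h1
  rw [add_comm 1 r]
  refine mul_left_cancel₀ (show ((r : ℚ) + 1) ≠ 0 by positivity) ?_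
  rw [mul_zero, ← h1, mul_sum]
  refine sum_congr rfl fun k hk => ?_
  have hk' : k ≤ r + 1 := Nat.lt_succ_iff.1 (mem_range.1 hk)
  have e := congrArg (fun m : ℕ => (m : ℚ)) (Nat.choose_succ_right_eq (k + (r + 1)) r)
  rw [show k + (r + 1) - r = k + 1 by omega] at e
  push_cast at e
  have hk1 : ((k : ℚ) + 1) ≠ 0 := by positivity
  have hs : (-1 : ℚ) ^ (r + 1) * (-1) ^ (r + 1 - k) = (-1) ^ k := by
    obtain ⟨d, hd⟩ := Nat.exists_eq_add_of_le hk'
    rw [hd, Nat.add_sub_cancel_left, pow_add, mul_assoc, ← mul_pow]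
    norm_num
  rw [P, Nat.cast_mul, ← Nat.choose_symm_add (a := r + 1) (b := k), add_comm (r + 1) k]
  field_simp
  linear_combination (((r + 1).choose k : ℕ) : ℚ) * (-1) ^ k * e -
    (((r + 1).choose k : ℕ) : ℚ) * ((k : ℚ) + 1) * ((k + (r + 1)).choose r : ℕ) * hs

theorem recurrence_logTwo (j : ℕ) :
    ((j : ℚ) + 2) * delannoy (j + 2) - 3 * (2 * (j : ℚ) + 3) * delannoy (j + 1) +
      ((j : ℚ) + 1) * delannoy j = 0 ∧
    ((j : ℚ) + 2) * logNum (j + 2) - 3 * (2 * (j : ℚ) + 3) * logNum (j + 1) +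
      ((j : ℚ) + 1) * logNum j = 0 := by
  constructor
  · have h := sum_bonnet j (fun _ => 1)
    simpa [delannoy] using h
  · have h := sum_bonnet j altHarm
    have hd : ∀ k, altHarm (k + 1) - altHarm k = (-1) ^ k / ((k : ℚ) + 1) := fun k => by
      rw [altHarm, altHarm, sum_range_succ, add_sub_cancel_left]
    simp only [hd, sum_P_alt_div (show 1 ≤ j + 1 by omega), mul_zero] at h
    exact h

theorem delannoy_zero : delannoy 0 = 1 := by simp [delannoy, P]
theorem delannoy_one : delannoy 1 = 3 := by norm_num [delannoy, P, sum_range_succ]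
theorem logNum_zero : logNum 0 = 0 := by simp [logNum, altHarm]
theorem logNum_one : logNum 1 = 2 := by norm_num [logNum, altHarm, P, sum_range_succ]

theorem delannoy_pos (n : ℕ) : 0 < delannoy n :=
  Finset.sum_pos (fun _ hk => FA.Apery.P_pos (Nat.lt_succ_iff.mp (mem_range.mp hk)))
    ⟨0, mem_range.mpr (by omega)⟩

theorem three_mul_delannoy_le (n : ℕ) : 3 * delannoy n ≤ delannoy (n + 1) := by
  induction n with
  | zero => rw [delannoy_zero, delannoy_one]; norm_num
  | succ n ih =>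
    obtain ⟨h, -⟩ := recurrence_logTwo n
    refine le_of_mul_le_mul_left ?_ (show (0 : ℚ) < (n : ℚ) + 2 by positivity)
    nlinarith [mul_le_mul_of_nonneg_left ih (show (0 : ℚ) ≤ (n : ℚ) + 1 by positivity),
      mul_nonneg (Nat.cast_nonneg (α := ℚ) n) (delannoy_pos (n + 1)).le,
      delannoy_pos (n + 1)]

/-- **The determinant.** -/
theorem wronskian_logTwo (n : ℕ) :
    delannoy n * logNum (n + 1) - delannoy (n + 1) * logNum n = 2 / ((n : ℚ) + 1) := by
  induction n with
  | zero => norm_num [delannoy_zero, delannoy_one, logNum_zero, logNum_one]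
  | succ n ih =>
    obtain ⟨ra, rb⟩ := recurrence_logTwo n
    rw [eq_div_iff (by positivity)] at ih
    push_cast
    rw [show (n : ℚ) + 1 + 1 = n + 2 by ring, eq_div_iff (by positivity)]
    linear_combination delannoy (n + 1) * rb - logNum (n + 1) * ra + ih

theorem isI_delannoy (n : ℕ) : IsI (delannoy n) :=
  FA.Apery.isI_sum _ fun k _ => ⟨((n.choose k * (n + k).choose k : ℕ) : ℤ), by simp [P]⟩

theorem isI_logNum (n : ℕ) : IsI ((Nat.lcmUpto n : ℚ) * logNum n) := by
  rw [logNum, mul_sum]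
  refine FA.Apery.isI_sum _ fun k hk => ?_
  rw [altHarm, mul_sum, mul_sum]
  refine FA.Apery.isI_sum _ fun m hm => ?_
  obtain ⟨e, he⟩ : m + 1 ∣ Nat.lcmUpto n := Finset.dvd_lcm (f := id) (mem_Icc.mpr
    ⟨by omega, by rw [mem_range] at hm hk; omega⟩)
  refine ⟨(-1) ^ m * ((e * (n.choose k * (n + k).choose k) : ℕ) : ℤ), ?_⟩
  rw [he, P]
  push_cast
  field_simp

/-! ### The integrals -/

/-- `x (1 - x) / (1 + x)`. -/
def legU (x : ℝ) : ℝ := x * (1 - x) / (1 + x)

/-- `∫₀¹ u ^ n / (1 + x)`. -/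
def legInt (n : ℕ) : ℝ := ∫ x in (0 : ℝ)..1, legU x ^ n / (1 + x)

theorem continuousOn_leg (n : ℕ) :
    ContinuousOn (fun x => legU x ^ n / (1 + x)) (Set.uIcc (0 : ℝ) 1) := by
  intro x hx
  rw [Set.uIcc_of_le zero_le_one] at hx
  have : 1 + x ≠ 0 := by linarith [hx.1]
  exact ContinuousAt.continuousWithinAt (by unfold legU; fun_prop (disch := assumption))

theorem hasDerivAt_legU {x : ℝ} (hx : 1 + x ≠ 0) :
    HasDerivAt legU ((1 - 2 * x - x ^ 2) / (1 + x) ^ 2) x := by
  refine (((hasDerivAt_id x).mul ((hasDerivAt_id x).const_sub 1)).div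
    ((hasDerivAt_id x).const_add 1) hx).congr_deriv ?_
  simp only [id, Pi.mul_apply]
  ring

theorem legInt_recurrence (j : ℕ) :
    ((j : ℝ) + 2) * legInt (j + 2) - 3 * (2 * (j : ℝ) + 3) * legInt (j + 1) +
      ((j : ℝ) + 1) * legInt j = 0 := by
  have hne : ∀ x ∈ Set.uIcc (0 : ℝ) 1, 1 + x ≠ 0 := fun x hx => by
    rw [Set.uIcc_of_le zero_le_one] at hx; linarith [hx.1]
  have hd : ∀ x ∈ Set.uIcc (0 : ℝ) 1, HasDerivAt
      (fun t => legU t ^ (j + 1) * ((1 - 2 * t - t ^ 2) / (1 + t)))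
      (((j : ℝ) + 2) * (legU x ^ (j + 2) / (1 + x)) -
        3 * (2 * (j : ℝ) + 3) * (legU x ^ (j + 1) / (1 + x)) +
        ((j : ℝ) + 1) * (legU x ^ j / (1 + x))) x := fun x hx => by
    refine (((hasDerivAt_legU (hne x hx)).pow (j + 1)).mul
      (((((hasDerivAt_id x).const_mul 2).const_sub 1).sub (hasDerivAt_pow 2 x)).div
        ((hasDerivAt_id x).const_add 1) (hne x hx))).congr_deriv ?_
    have := hne x hx
    simp only [id, Pi.pow_apply, Pi.sub_apply, Pi.div_apply, pow_succ, Nat.add_sub_cancel, legU]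
    push_cast
    field_simp
    ring
  have hi : ∀ n (w : ℝ), IntervalIntegrable (fun x => w * (legU x ^ n / (1 + x)))
      MeasureTheory.volume 0 1 := fun n w => ((continuousOn_leg n).intervalIntegrable).const_mul w
  have h := intervalIntegral.integral_eq_sub_of_hasDerivAt hd (((hi _ _).sub (hi _ _)).add (hi _ _))
  rw [intervalIntegral.integral_add ((hi _ _).sub (hi _ _)) (hi _ _),
    intervalIntegral.integral_sub (hi _ _) (hi _ _), intervalIntegral.integral_const_mul,
    intervalIntegral.integral_const_mul, intervalIntegral.integral_const_mul] at h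
  simpa [legInt, legU] using h

theorem legInt_zero_one : legInt 0 = Real.log 2 ∧ legInt 1 = 3 * Real.log 2 - 2 := by
  have hne : ∀ x ∈ Set.uIcc (0 : ℝ) 1, 1 + x ≠ 0 := fun x hx => by
    rw [Set.uIcc_of_le zero_le_one] at hx; linarith [hx.1]
  constructor
  · have h := intervalIntegral.integral_eq_sub_of_hasDerivAt
      (f := fun t : ℝ => Real.log (1 + t)) (f' := fun x => legU x ^ 0 / (1 + x))
      (fun x hx => (((hasDerivAt_id x).const_add 1).log (hne x hx)).congr_deriv (by simp))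
      (continuousOn_leg 0).intervalIntegrable
    rw [legInt, h]
    norm_num
  · have h := intervalIntegral.integral_eq_sub_of_hasDerivAt
      (f := fun t : ℝ => -t + 3 * Real.log (1 + t) + 2 / (1 + t))
      (f' := fun x => legU x ^ 1 / (1 + x))
      (fun x hx => (((hasDerivAt_id x).neg.add
        ((((hasDerivAt_id x).const_add 1).log (hne x hx)).const_mul 3)).add
        ((hasDerivAt_const x (2 : ℝ)).div ((hasDerivAt_id x).const_add 1) (hne x hx))).congr_deriv
        (by
          have := hne x hx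
          simp only [id, legU, pow_one]
          field_simp
          ring))
      (continuousOn_leg 1).intervalIntegrable
    rw [legInt, h]
    norm_num

theorem legInt_eq : ∀ n : ℕ,
    legInt n = (delannoy n : ℝ) * Real.log 2 - (logNum n : ℝ) := by
  intro n
  induction n using Nat.twoStepInduction with
  | zero => simp [legInt_zero_one.1, delannoy_zero, logNum_zero]
  | one => simp [legInt_zero_one.2, delannoy_one, logNum_one]
  | more j h0 h1 =>
    have hr := legInt_recurrence j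
    have ha := congrArg (fun x : ℚ => (x : ℝ)) (recurrence_logTwo j).1
    have hb := congrArg (fun x : ℚ => (x : ℝ)) (recurrence_logTwo j).2
    push_cast at ha hb
    rw [h0, h1] at hr
    refine mul_left_cancel₀ (show ((j : ℝ) + 2) ≠ 0 by positivity) ?_
    linear_combination hr - Real.log 2 * ha + hb

theorem abs_legInt_le (n : ℕ) : |legInt n| ≤ (1 / 4 : ℝ) ^ n := by
  have h := intervalIntegral.norm_integral_le_of_norm_le_const (a := (0 : ℝ)) (b := 1)
    (C := (1 / 4 : ℝ) ^ n) (f := fun x => legU x ^ n / (1 + x)) fun x hx => by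
      rw [Set.uIoc_of_le zero_le_one] at hx
      have h0 : 0 ≤ legU x :=
        div_nonneg (mul_nonneg hx.1.le (by linarith [hx.2])) (by linarith [hx.1])
      have h1 : legU x ≤ 1 / 4 := by
        rw [legU, div_le_iff₀ (by linarith [hx.1])]
        nlinarith [sq_nonneg (x - 1 / 2), hx.1]
      rw [Real.norm_eq_abs, abs_of_nonneg (div_nonneg (pow_nonneg h0 n) (by linarith [hx.1]))]
      exact (div_le_self (pow_nonneg h0 n) (by linarith [hx.1])).trans (pow_le_pow_left₀ h0 h1 n)
  simpa [legInt] using h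

theorem tendsto_ratio_logTwo :
    Tendsto (fun n => (logNum n : ℝ) / (delannoy n : ℝ)) atTop (𝓝 (Real.log 2)) := by
  rw [← tendsto_sub_nhds_zero_iff]
  refine squeeze_zero_norm (fun n => ?_)
    (tendsto_pow_atTop_nhds_zero_of_lt_one (by norm_num) (show (1 / 4 : ℝ) < 1 by norm_num))
  have h1 : (1 : ℝ) ≤ delannoy n := by
    induction n with
    | zero => simp [delannoy_zero]
    | succ n ih =>
      have h : 3 * (delannoy n : ℝ) ≤ delannoy (n + 1) := by
        exact_mod_cast three_mul_delannoy_le n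
      linarith
  refine le_trans ?_ (abs_legInt_le n)
  rw [Real.norm_eq_abs, legInt_eq, div_sub' (by linarith), abs_div, abs_sub_comm,
    abs_of_pos (show (0 : ℝ) < delannoy n by linarith)]
  exact div_le_self (abs_nonneg _) h1

theorem tendsto_ratio_delannoy :
    Tendsto (fun n => (delannoy (n + 1) : ℝ) / (delannoy n : ℝ)) atTop (𝓝 (3 + 2 * √2)) := by
  refine tendsto_ratio_of_recurrence (a := fun n => (delannoy n : ℝ))
    (p := fun n : ℕ => 3 * (2 - 1 / ((n : ℝ) + 2)))
    (c := fun n : ℕ => -(1 - 1 / ((n : ℝ) + 2))) (P := 6) (C := -1)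
    (fun n => Rat.cast_pos.2 (delannoy_pos n)) (fun n => ?_) (fun n => ?_) ?_ ?_
    (by linarith [Real.sqrt_nonneg 2]) ?_ (by norm_num)
  · exact_mod_cast three_mul_delannoy_le n
  · have h := congrArg (fun x : ℚ => (x : ℝ)) (recurrence_logTwo n).1
    push_cast at h
    field_simp
    linear_combination h
  · have h := (tendsto_one_div_add_atTop_nhds_zero_nat (𝕜 := ℝ)).comp (tendsto_add_atTop_nat 1)
    have h' := (h.const_sub 2).const_mul (3 : ℝ)
    norm_num at h'
    refine h'.congr fun n => ?_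
    ring
  · have h := (tendsto_one_div_add_atTop_nhds_zero_nat (𝕜 := ℝ)).comp (tendsto_add_atTop_nat 1)
    have h' := (h.const_sub 1).neg
    norm_num at h'
    refine h'.congr fun n => ?_
    ring
  · field_simp
    linear_combination 4 * Real.mul_self_sqrt (show (0 : ℝ) ≤ 2 by norm_num)

theorem five_thirds_lt_log : (5 / 3 : ℝ) < Real.log (3 + 2 * √2) := by
  have h2 : (1414 / 1000 : ℝ) ≤ √2 := Real.le_sqrt_of_sq_le (by norm_num)
  rw [Real.lt_log_iff_exp_lt (by linarith)]
  refine lt_of_lt_of_le (lt_of_pow_lt_pow_left₀ 3 (b := (58 / 10 : ℝ)) (by norm_num) ?_)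
    (by linarith)
  rw [← Real.exp_nat_mul, show ((3 : ℕ) : ℝ) * (5 / 3) = ((5 : ℕ) : ℝ) * 1 by norm_num,
    Real.exp_nat_mul]
  exact (pow_lt_pow_left₀ Real.exp_one_lt_d9 (Real.exp_pos 1).le (by norm_num)).trans
    (by norm_num)

/-- **The exponent of `log 2`.** -/
theorem hasExponent_logTwo {μ : ℝ}
    (hμ : 1 + (Real.log (3 + 2 * √2) + 1) / (Real.log (3 + 2 * √2) - 1) < μ) :
    HasExponent (Real.log 2) μ := by
  choose u hu using isI_delannoy
  choose v hv using isI_logNum
  refine hasExponent_of_growth (a := fun n => (delannoy n : ℝ)) (b := fun n => (logNum n : ℝ))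
    (s := 1) (K := 2) (m := 1) (α := Real.log (3 + 2 * √2))
    (fun n => Rat.cast_pos.2 (delannoy_pos n))
    (fun n => by exact_mod_cast three_mul_delannoy_le n) ?_ ?_ two_pos (fun n => ?_)
    tendsto_ratio_logTwo one_pos (fun n => ?_) ?_
  · exact tendsto_log_div_of_ratio (fun n => Rat.cast_pos.2 (delannoy_pos n))
      (by positivity) tendsto_ratio_delannoy
  · push_cast
    linarith [five_thirds_lt_log]
  · have ha : (0 : ℝ) < delannoy n := Rat.cast_pos.2 (delannoy_pos n)
    have hb : (0 : ℝ) < delannoy (n + 1) := Rat.cast_pos.2 (delannoy_pos (n + 1))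
    have h := congrArg (fun x : ℚ => (x : ℝ)) (wronskian_logTwo n)
    push_cast at h
    rw [div_sub_div _ _ hb.ne' ha.ne', mul_comm (logNum (n + 1) : ℝ), h, div_div, pow_one,
      abs_of_pos (by positivity)]
    ring
  · refine ⟨(Nat.lcmUpto n : ℤ) * u n, v n, ?_, ?_⟩
    · rw [Int.cast_mul, Int.cast_natCast, hu n, Rat.cast_intCast, one_mul, pow_one]
    · have := congrArg (fun x : ℚ => (x : ℝ)) (hv n)
      push_cast at this
      rw [one_mul, pow_one]
      exact this.symm
  · push_cast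
    exact hμ

theorem logTwo_exponent_lt :
    1 + (Real.log (3 + 2 * √2) + 1) / (Real.log (3 + 2 * √2) - 1) < 5 := by
  have h := five_thirds_lt_log
  rw [← lt_sub_iff_add_lt', div_lt_iff₀ (by linarith)]
  linarith

end FA.AperyExponents
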