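import Fermat.Agent.AperyExponents.Criterion

/-!
# The exponents of `ζ(2)`, `π` and `ζ(3)`

Apéry's numbers grow like `φ ^ (5 n)` and `(1 + √2) ^ (4 n)`.
-/

set_option autoImplicit false

noncomputable section

namespace FA.AperyExponents

open Filter Topology Finset
open FA.Apery (aTwo bTwo aSeq bSeq)

/-- Coefficients that are continuous in `1 / (n + 2)`. -/
theorem tendsto_of_continuous_inv {F : ℝ → ℝ} (hF : Continuous F) :
    Tendsto (fun n : ℕ => F (1 / ((n : ℝ) + 2))) atTop (𝓝 (F 0)) := by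
  refine (hF.tendsto 0).comp ?_
  exact ((tendsto_atTop_add_const_right atTop (2 : ℝ)
    (tendsto_natCast_atTop_atTop (R := ℝ))).inv_tendsto_atTop).congr fun n => (one_div _).symm

theorem sqrt_five_sq : √5 * √5 = 5 := Real.mul_self_sqrt (by norm_num)

theorem golden_pow_five : ((1 + √5) / 2) ^ 5 = (11 + 5 * √5) / 2 := by
  linear_combination ((√5) ^ 3 / 32 + 5 * (√5) ^ 2 / 32 + 15 * √5 / 32 + 35 / 32) * sqrt_five_sq

theorem sqrt_two_pow_four : (1 + √2) ^ 4 = 17 + 12 * √2 := by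
  linear_combination ((√2) ^ 2 + 4 * √2 + 8) * Real.mul_self_sqrt (show (0 : ℝ) ≤ 2 by norm_num)

theorem tendsto_ratio_aTwo : Tendsto (fun n => ((aTwo (n + 1) : ℚ) : ℝ) / ((aTwo n : ℚ) : ℝ))
    atTop (𝓝 (((1 + √5) / 2) ^ 5)) := by
  rw [golden_pow_five]
  have h5 : (2 : ℝ) ≤ √5 := Real.le_sqrt_of_sq_le (by norm_num)
  refine tendsto_ratio_of_recurrence (a := fun n => ((aTwo n : ℚ) : ℝ))
    (p := fun n : ℕ => 11 * (1 - 1 / ((n : ℝ) + 2)) ^ 2 +
      11 * (1 - 1 / ((n : ℝ) + 2)) * (1 / ((n : ℝ) + 2)) + 3 * (1 / ((n : ℝ) + 2)) ^ 2)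
    (c := fun n : ℕ => (1 - 1 / ((n : ℝ) + 2)) ^ 2) (P := 11) (C := 1)
    (fun n => Rat.cast_pos.2 (FA.Apery.aTwo_pos n)) (fun n => ?_) (fun n => ?_) ?_ ?_
    (by linarith) ?_ (by norm_num)
  · exact_mod_cast FA.Apery.three_mul_aTwo_le n
  · have h := congrArg (fun x : ℚ => (x : ℝ)) (FA.Apery.recurrenceTwo n).1
    simp only [FA.Apery.polTwo] at h
    push_cast at h
    field_simp
    linear_combination h
  · convert tendsto_of_continuous_inv
      (F := fun u => 11 * (1 - u) ^ 2 + 11 * (1 - u) * u + 3 * u ^ 2) (by fun_prop) using 2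
    norm_num
  · convert tendsto_of_continuous_inv (F := fun u => (1 - u) ^ 2) (by fun_prop) using 2
    norm_num
  · field_simp
    linear_combination 25 * sqrt_five_sq

theorem tendsto_ratio_aSeq : Tendsto (fun n => ((aSeq (n + 1) : ℚ) : ℝ) / ((aSeq n : ℚ) : ℝ))
    atTop (𝓝 ((1 + √2) ^ 4)) := by
  rw [sqrt_two_pow_four]
  refine tendsto_ratio_of_recurrence (a := fun n => ((aSeq n : ℚ) : ℝ))
    (p := fun n : ℕ => 34 * (1 - 1 / ((n : ℝ) + 2)) ^ 3 +
      51 * (1 - 1 / ((n : ℝ) + 2)) ^ 2 * (1 / ((n : ℝ) + 2)) +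
      27 * (1 - 1 / ((n : ℝ) + 2)) * (1 / ((n : ℝ) + 2)) ^ 2 + 5 * (1 / ((n : ℝ) + 2)) ^ 3)
    (c := fun n : ℕ => -(1 - 1 / ((n : ℝ) + 2)) ^ 3) (P := 34) (C := -1)
    (fun n => Rat.cast_pos.2 (FA.Apery.aSeq_pos n)) (fun n => ?_) (fun n => ?_) ?_ ?_
    (by linarith [Real.sqrt_nonneg 2]) ?_ (by norm_num)
  · have h : ((5 : ℚ) : ℝ) * (aSeq n : ℚ) ≤ (aSeq (n + 1) : ℚ) := by
      exact_mod_cast FA.Apery.five_mul_aSeq_le n
    push_cast at h
    linarith [(Rat.cast_pos (K := ℝ)).2 (FA.Apery.aSeq_pos n)]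
  · have h := congrArg (fun x : ℚ => (x : ℝ)) (FA.Apery.recurrence n).1
    simp only [FA.Apery.pol] at h
    push_cast at h
    field_simp
    linear_combination h
  · convert tendsto_of_continuous_inv (F := fun u =>
      34 * (1 - u) ^ 3 + 51 * (1 - u) ^ 2 * u + 27 * (1 - u) * u ^ 2 + 5 * u ^ 3) (by fun_prop)
      using 2
    norm_num
  · convert tendsto_of_continuous_inv (F := fun u => -(1 - u) ^ 3) (by fun_prop) using 2
    norm_num
  · field_simp
    linear_combination 144 * Real.mul_self_sqrt (show (0 : ℝ) ≤ 2 by norm_num)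

theorem twelve_fifths_lt_log : (12 / 5 : ℝ) < 5 * Real.log ((1 + √5) / 2) := by
  have h5 : (2236 / 1000 : ℝ) ≤ √5 := Real.le_sqrt_of_sq_le (by norm_num)
  have e : (5 : ℝ) * Real.log ((1 + √5) / 2) = Real.log (((1 + √5) / 2) ^ 5) := by
    rw [Real.log_pow]; norm_num
  rw [e, golden_pow_five,
    Real.lt_log_iff_exp_lt (by linarith)]
  refine lt_of_lt_of_le (lt_of_pow_lt_pow_left₀ 5 (b := (1109 / 100 : ℝ)) (by norm_num) ?_)
    (by linarith)
  rw [← Real.exp_nat_mul, show ((5 : ℕ) : ℝ) * (12 / 5) = ((12 : ℕ) : ℝ) * 1 by norm_num,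
    Real.exp_nat_mul]
  exact (pow_lt_pow_left₀ Real.exp_one_lt_d9 (Real.exp_pos 1).le (by norm_num)).trans
    (by norm_num)

theorem seven_halves_lt_log : (7 / 2 : ℝ) < 4 * Real.log (1 + √2) := by
  have h2 : (1414 / 1000 : ℝ) ≤ √2 := Real.le_sqrt_of_sq_le (by norm_num)
  have e : (4 : ℝ) * Real.log (1 + √2) = Real.log ((1 + √2) ^ 4) := by
    rw [Real.log_pow]; norm_num
  rw [e, sqrt_two_pow_four,
    Real.lt_log_iff_exp_lt (by linarith)]
  refine lt_of_lt_of_le (lt_of_pow_lt_pow_left₀ 2 (b := (339 / 10 : ℝ)) (by norm_num) ?_)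
    (by linarith)
  rw [← Real.exp_nat_mul, show ((2 : ℕ) : ℝ) * (7 / 2) = ((7 : ℕ) : ℝ) * 1 by norm_num,
    Real.exp_nat_mul]
  exact (pow_lt_pow_left₀ Real.exp_one_lt_d9 (Real.exp_pos 1).le (by norm_num)).trans
    (by norm_num)

/-- **The exponent of `ζ(2)`.** -/
theorem hasExponent_zetaTwo {μ : ℝ}
    (hμ : 1 + (5 * Real.log ((1 + √5) / 2) + 2) / (5 * Real.log ((1 + √5) / 2) - 2) < μ) :
    HasExponent (Real.pi ^ 2 / 6) μ := by
  choose u hu using FA.Apery.isI_aTwo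
  choose v hv using FA.Apery.isI_bTwo
  refine hasExponent_of_growth (a := fun n => ((aTwo n : ℚ) : ℝ))
    (b := fun n => ((bTwo n : ℚ) : ℝ)) (s := 2) (K := 5) (m := 1)
    (α := 5 * Real.log ((1 + √5) / 2)) (fun n => Rat.cast_pos.2 (FA.Apery.aTwo_pos n))
    (fun n => by exact_mod_cast FA.Apery.three_mul_aTwo_le n) ?_ ?_ (by norm_num)
    FA.Apery.abs_ratioTwo_succ_sub FA.Apery.tendsto_ratioTwo one_pos (fun n => ?_) ?_
  · have h := tendsto_log_div_of_ratio (fun n => Rat.cast_pos.2 (FA.Apery.aTwo_pos n))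
      (by positivity) tendsto_ratio_aTwo
    rwa [Real.log_pow, Nat.cast_ofNat] at h
  · push_cast
    linarith [twelve_fifths_lt_log]
  · refine ⟨(Nat.lcmUpto n : ℤ) ^ 2 * u n, v n, ?_, ?_⟩
    · rw [Int.cast_mul, Int.cast_pow, Int.cast_natCast, hu n, Rat.cast_intCast, one_mul]
    · have := congrArg (fun x : ℚ => (x : ℝ)) (hv n)
      push_cast at this
      rw [one_mul]
      exact this.symm
  · push_cast
    exact hμ

theorem zetaTwo_exponent_lt :
    1 + (5 * Real.log ((1 + √5) / 2) + 2) / (5 * Real.log ((1 + √5) / 2) - 2) < 12 := by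
  have h := twelve_fifths_lt_log
  rw [← lt_sub_iff_add_lt', div_lt_iff₀ (by linarith)]
  linarith

/-- **An exponent of a square passes to the square root, doubled.** -/
theorem hasExponent_pi {μ : ℝ} (hμ0 : 0 ≤ μ) (h : HasExponent (Real.pi ^ 2 / 6) μ) :
    HasExponent Real.pi (2 * μ) := by
  obtain ⟨c, hc, h⟩ := h
  refine ⟨min 1 (c / (2 * 6 ^ μ)), lt_min one_pos (by positivity), fun p q hq => ?_⟩
  have hq1 : (1 : ℝ) ≤ q := by exact_mod_cast hq
  have hq0 : (0 : ℝ) < q := by linarith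
  rw [div_le_iff₀ (by positivity)]
  rcases le_or_gt 1 |Real.pi - p / q| with hbig | hsmall
  · exact le_trans (min_le_left _ _) (le_trans (Real.one_le_rpow hq1 (by linarith))
      (le_mul_of_one_le_left (by positivity) hbig))
  refine le_trans (min_le_right _ _) ?_
  have h1 := h (p ^ 2) (6 * q ^ 2) (by positivity)
  push_cast at h1
  have e : Real.pi ^ 2 / 6 - (p : ℝ) ^ 2 / (6 * (q : ℝ) ^ 2) =
      (Real.pi - p / q) * ((Real.pi + p / q) / 6) := by field_simp; ring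
  have h2 : |(Real.pi + p / q) / 6| ≤ 2 := by
    rw [abs_lt] at hsmall
    rw [abs_le]
    constructor <;> linarith [Real.pi_pos, Real.pi_le_four, hsmall.1, hsmall.2]
  rw [e, abs_mul, Real.mul_rpow (by norm_num) (by positivity), ← Real.rpow_natCast (q : ℝ) 2,
    ← Real.rpow_mul hq0.le, Nat.cast_ofNat, div_le_iff₀ (by positivity)] at h1
  rw [div_le_iff₀ (by positivity)]
  calc c ≤ |Real.pi - p / q| * |(Real.pi + p / q) / 6| * (6 ^ μ * (q : ℝ) ^ (2 * μ)) := h1
    _ ≤ |Real.pi - p / q| * 2 * (6 ^ μ * (q : ℝ) ^ (2 * μ)) := by gcongr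
    _ = _ := by ring

/-- **The exponent of `ζ(3)`.** -/
theorem hasExponent_zetaThree {μ : ℝ}
    (hμ : 1 + (4 * Real.log (1 + √2) + 3) / (4 * Real.log (1 + √2) - 3) < μ) :
    HasExponent FA.Apery.zetaThree μ := by
  choose u hu using FA.Apery.isI_aSeq
  choose v hv using FA.Apery.isI_bSeq
  refine hasExponent_of_growth (a := fun n => ((aSeq n : ℚ) : ℝ))
    (b := fun n => ((bSeq n : ℚ) : ℝ)) (s := 3) (K := 6) (m := 2)
    (α := 4 * Real.log (1 + √2)) (fun n => Rat.cast_pos.2 (FA.Apery.aSeq_pos n))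
    (fun n => ?_) ?_ ?_ (by norm_num) (fun n => ?_) FA.Apery.tendsto_ratio two_pos
    (fun n => ?_) ?_
  · have h : ((5 : ℚ) : ℝ) * (aSeq n : ℚ) ≤ (aSeq (n + 1) : ℚ) := by
      exact_mod_cast FA.Apery.five_mul_aSeq_le n
    push_cast at h
    linarith [(Rat.cast_pos (K := ℝ)).2 (FA.Apery.aSeq_pos n)]
  · have h := tendsto_log_div_of_ratio (fun n => Rat.cast_pos.2 (FA.Apery.aSeq_pos n))
      (by positivity) tendsto_ratio_aSeq
    rwa [Real.log_pow, Nat.cast_ofNat] at h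
  · push_cast
    linarith [seven_halves_lt_log]
  · have h := FA.Apery.ratio_succ n
    simp only [FA.Apery.ratio] at h
    have := FA.Apery.aSeq_pos n
    have := FA.Apery.aSeq_pos (n + 1)
    rw [h, add_sub_cancel_left, div_div, abs_of_pos (by positivity)]
  · refine ⟨2 * (Nat.lcmUpto n : ℤ) ^ 3 * u n, v n, ?_, ?_⟩
    · rw [Int.cast_mul, Int.cast_mul, Int.cast_pow, Int.cast_natCast, hu n, Rat.cast_intCast,
        Int.cast_ofNat]
    · have := congrArg (fun x : ℚ => (x : ℝ)) (hv n)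
      push_cast at this
      exact this.symm
  · push_cast
    exact hμ

theorem zetaThree_exponent_lt :
    1 + (4 * Real.log (1 + √2) + 3) / (4 * Real.log (1 + √2) - 3) < 14 := by
  have h := seven_halves_lt_log
  rw [← lt_sub_iff_add_lt', div_lt_iff₀ (by linarith)]
  linarith

end FA.AperyExponents
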